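import Fermat.Agent.AbScheme.Boundary.Vanishing

/-!
With factorial local rings the complement of a nonempty affine open is locally cut out by one
equation.
-/

set_option autoImplicit false

noncomputable section

universe u

namespace FLTAgent.AbScheme

open CategoryTheory AlgebraicGeometry TopologicalSpace IsLocalRing

variable {X : Scheme.{u}} [IsIntegral X]

theorem algebraMap_stalkSpecializes {z y : X} (h : z ⤳ y) (r : X.presheaf.stalk y) :
    algebraMap (X.presheaf.stalk z) X.functionField ((X.presheaf.stalkSpecializes h).hom r) =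
      algebraMap (X.presheaf.stalk y) X.functionField r := by
  rw [RingHom.algebraMap_toAlgebra, RingHom.algebraMap_toAlgebra, ← ConcreteCategory.comp_apply,
    TopCat.Presheaf.stalkSpecializes_comp]

/-- An element of the local ring at a generisation is a fraction from the local ring. -/
theorem exists_mul_eq_of_specializes {z y : X} (h : z ⤳ y) (c : X.presheaf.stalk z) :
    ∃ a d : X.presheaf.stalk y, IsUnit ((X.presheaf.stalkSpecializes h).hom d) ∧
      algebraMap _ X.functionField c * algebraMap _ X.functionField d =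
        algebraMap _ X.functionField a := by
  obtain ⟨_, ⟨P, hP', rfl⟩, hy, -⟩ :=
    X.isBasis_affineOpens.exists_subset_of_mem_open (Set.mem_univ y) isOpen_univ
  have hP : IsAffineOpen P := hP'
  have hz : z ∈ P := h.mem_open P.2 hy
  let _ : Algebra Γ(X, P) (X.presheaf.stalk z) :=
    TopCat.Presheaf.algebra_section_stalk X.presheaf ⟨z, hz⟩
  have hloc : IsLocalization.AtPrime (X.presheaf.stalk z) (hP.primeIdealOf ⟨z, hz⟩).asIdeal :=
    hP.isLocalization_stalk ⟨z, hz⟩
  obtain ⟨b, s, rfl⟩ := IsLocalization.exists_mk'_eq (hP.primeIdealOf ⟨z, hz⟩).asIdeal.primeCompl c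
  have key : ∀ e : Γ(X, P), (X.presheaf.stalkSpecializes h).hom (X.presheaf.germ P y hy e)
      = algebraMap Γ(X, P) (X.presheaf.stalk z) e := germ_stalkSpecializes_hom h hy
  refine ⟨X.presheaf.germ P y hy b, X.presheaf.germ P y hy s.1, ?_, ?_⟩
  · rw [key]; exact IsLocalization.map_units _ s
  · rw [← algebraMap_stalkSpecializes h (X.presheaf.germ P y hy b),
      ← algebraMap_stalkSpecializes h (X.presheaf.germ P y hy s.1), key, key, ← map_mul,
      IsLocalization.mk'_spec]

variable {U : X.Opens}

/-- A point outside an affine open has a function on it with a pole there. -/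
theorem mem_of_germ_mem_range (hsep : X.IsSeparated) (hU : IsAffineOpen U)
    (hgen : genericPoint X ∈ U) (z : X)
    (H : ∀ r : Γ(X, U), ∃ c : X.presheaf.stalk z,
      algebraMap _ X.functionField c = X.presheaf.germ U (genericPoint X) hgen r) : z ∈ U := by
  choose φ hφ using H
  have hinj : Function.Injective (algebraMap (X.presheaf.stalk z) X.functionField) :=
    IsFractionRing.injective _ _
  let φh : Γ(X, U) →+* X.presheaf.stalk z :=
    { toFun := φ
      map_one' := hinj (by rw [hφ, map_one, map_one])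
      map_mul' := fun a b => hinj (by simp only [hφ, map_mul])
      map_zero' := hinj (by rw [hφ, map_zero, map_zero])
      map_add' := fun a b => hinj (by simp only [hφ, map_add]) }
  have hgz : genericPoint X ⤳ z := (genericPoint_spec X).specializes (Set.mem_univ z)
  let ι : Spec X.functionField ⟶ Spec (X.presheaf.stalk z) :=
    Spec.map (X.presheaf.stalkSpecializes hgz)
  have : IsDominant ι := ⟨(PrimeSpectrum.denseRange_comap_iff_ker_le_nilRadical
    (algebraMap (X.presheaf.stalk z) X.functionField)).2 (by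
    rw [(RingHom.injective_iff_ker_eq_bot _).1 hinj]; exact bot_le)⟩
  let g : Spec (X.presheaf.stalk z) ⟶ X := Spec.map (CommRingCat.ofHom φh) ≫ hU.fromSpec
  have hg : g = X.fromSpecStalk z := by
    refine ext_of_isDominant ι ?_
    rw [show ι ≫ X.fromSpecStalk z = X.fromSpecStalk (genericPoint X) from
        Scheme.SpecMap_stalkSpecializes_fromSpecStalk hgz,
      ← hU.fromSpecStalk_eq_fromSpecStalk hgen]
    have e : CommRingCat.ofHom φh ≫ X.presheaf.stalkSpecializes hgz
        = X.presheaf.germ U (genericPoint X) hgen := by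
      ext r
      exact hφ r
    show ι ≫ g = Spec.map (X.presheaf.germ U (genericPoint X) hgen) ≫ hU.fromSpec
    rw [← e, Spec.map_comp]
    exact (Category.assoc ..).symm
  have hmem : g (closedPoint _) ∈ Set.range hU.fromSpec := ⟨_, rfl⟩
  rw [hU.range_fromSpec, hg, Scheme.fromSpecStalk_closedPoint] at hmem
  exact hmem

variable [∀ x : X, UniqueFactorizationMonoid (X.presheaf.stalk x)]

/-- The complement of an affine open has codimension one. -/
theorem exists_prime_mem (hsep : X.IsSeparated) (hU : IsAffineOpen U)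
    (hne : (U : Set X).Nonempty) {y : X} (Q : Ideal (X.presheaf.stalk y)) [Q.IsPrime]
    (hQ : vanishAt U y ≤ Q) : ∃ π ∈ Q, Prime π ∧ vanishAt U y ≤ Ideal.span {π} := by
  by_contra hcon
  push Not at hcon
  obtain ⟨z, h, rfl⟩ := exists_point_of_prime y Q
  have hgen : genericPoint X ∈ U :=
    ((genericPoint_spec X).mem_open_set_iff U.2).2 (by simpa using hne)
  have hz : z ∉ U := fun hz => by
    obtain ⟨r, hr, hu⟩ := exists_mem_vanishAt_isUnit U h hz
    exact (hQ hr : (X.presheaf.stalkSpecializes h).hom r ∈ maximalIdeal _) hu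
  refine hz (mem_of_germ_mem_range hsep hU hgen z fun r => ?_)
  set K := X.functionField
  set val := algebraMap (X.presheaf.stalk y) K
  have hval : Function.Injective val := IsFractionRing.injective _ _
  set ρ : K := X.presheaf.germ U (genericPoint X) hgen r
  obtain ⟨a, b, hb, hab⟩ := IsFractionRing.div_surjective (A := X.presheaf.stalk y) ρ
  have hb0 : b ≠ 0 := nonZeroDivisors.ne_zero hb
  obtain ⟨b', a', c, hrel, hcb, hca⟩ := UniqueFactorizationMonoid.exists_reduced_factors b hb0 a
  have hc0 : c ≠ 0 := by rintro rfl; exact hb0 (by rw [← hcb, zero_mul])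
  have hb'0 : b' ≠ 0 := by rintro rfl; exact hb0 (by rw [← hcb, mul_zero])
  have hρ : ρ * val b' = val a' := by
    rw [← hab, ← hca, ← hcb, map_mul, map_mul,
      mul_div_mul_left _ _ ((map_ne_zero_iff _ hval).2 hc0),
      div_mul_cancel₀ _ ((map_ne_zero_iff _ hval).2 hb'0)]
  have hb'Q : IsUnit ((X.presheaf.stalkSpecializes h).hom b') := by
    by_contra hnu
    have hb'nu : ¬ IsUnit b' := fun hu => hnu (hu.map _)
    obtain ⟨π, hπ, hπb, hπz⟩ : ∃ π, Prime π ∧ π ∣ b' ∧
        π ∈ (maximalIdeal (X.presheaf.stalk z)).comap (X.presheaf.stalkSpecializes h).hom := by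
      obtain ⟨f, hf, hfp⟩ := UniqueFactorizationMonoid.exists_prime_factors b' hb'0
      have : f.prod ∈ (maximalIdeal (X.presheaf.stalk z)).comap
          (X.presheaf.stalkSpecializes h).hom := by
        obtain ⟨w, hw⟩ := hfp
        rw [← Ideal.mul_unit_mem_iff_mem _ w.isUnit, hw]
        exact hnu
      obtain ⟨π, hπ, hπ'⟩ := (Ideal.IsPrime.multiset_prod_mem_iff_exists_mem
        (Ideal.IsPrime.comap _) f).1 this
      obtain ⟨w, hw⟩ := hfp
      exact ⟨π, hf π hπ, (Multiset.dvd_prod hπ).trans ⟨w, hw.symm⟩, hπ'⟩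
    have hspan : (Ideal.span {π}).IsPrime := (Ideal.span_singleton_prime hπ.ne_zero).2 hπ
    obtain ⟨z', h', heq⟩ := exists_point_of_prime y (Ideal.span {π})
    have hz' : z' ∈ U := by
      by_contra hn
      exact hcon π hπz hπ (heq ▸ vanishAt_le_of_notMem h' hn)
    obtain ⟨a₂, d, hd, had⟩ := exists_mul_eq_of_specializes h' (X.presheaf.germ U z' hz' r)
    have hρ' : algebraMap _ K (X.presheaf.germ U z' hz' r) = ρ := by
      rw [RingHom.algebraMap_toAlgebra, ← ConcreteCategory.comp_apply,
        X.presheaf.germ_stalkSpecializes]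
    rw [hρ'] at had
    have heq2 : a' * d = a₂ * b' := hval (by rw [map_mul, map_mul, ← hρ, ← had]; ring)
    have hπd : ¬ π ∣ d := fun hdvd => by
      have := heq.le (Ideal.mem_span_singleton.2 hdvd)
      exact this hd
    have hπa : π ∣ a' :=
      (hπ.dvd_or_dvd (heq2 ▸ hπb.mul_left a₂)).resolve_right hπd
    exact hπ.not_isUnit (hrel hπb hπa)
  refine ⟨(X.presheaf.stalkSpecializes h).hom a' * ↑hb'Q.unit⁻¹, ?_⟩
  have hu : algebraMap _ K ((X.presheaf.stalkSpecializes h).hom b') ≠ 0 := (hb'Q.map _).ne_zero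
  apply mul_right_cancel₀ hu
  rw [← map_mul, mul_assoc, IsUnit.val_inv_mul, mul_one, algebraMap_stalkSpecializes,
    algebraMap_stalkSpecializes]
  exact hρ.symm

/-- The vanishing ideal is principal. -/
theorem exists_vanishAt_eq_span (hsep : X.IsSeparated) (hU : IsAffineOpen U)
    (hne : (U : Set X).Nonempty) (y : X) :
    ∃ f, f ≠ 0 ∧ vanishAt U y = Ideal.span {f} := by
  set J := vanishAt U y
  have hmem : ∀ r, (∀ π, Prime π → J ≤ Ideal.span {π} → π ∣ r) → r ∈ J := by
    intro r hr
    have hrad : J.radical ≤ J := vanishAt_isRadical U y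
    refine hrad ?_
    rw [Ideal.radical_eq_sInf, Submodule.mem_sInf]
    rintro Q ⟨hQ, hQp⟩
    obtain ⟨π, hπQ, hπ, hJπ⟩ := exists_prime_mem hsep hU hne Q hQ
    exact Ideal.mem_of_dvd _ (hr π hπ hJπ) hπQ
  obtain ⟨f, ⟨hf, hf0⟩, hmin⟩ := (wellFounded_dvdNotUnit (α := X.presheaf.stalk y)).has_min
    {f | f ∈ J ∧ f ≠ 0} (by
      obtain ⟨f, hf, hf0⟩ := Submodule.exists_mem_ne_zero_of_ne_bot (vanishAt_ne_bot hne y)
      exact ⟨f, hf, hf0⟩)
  refine ⟨f, hf0, le_antisymm (fun r hr => Ideal.mem_span_singleton.2 ?_)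
    ((Ideal.span_singleton_le_iff_mem _).2 hf)⟩
  suffices ∀ d, d ∣ f → d ∣ r from this f dvd_rfl
  intro d
  induction d using UniqueFactorizationMonoid.induction_on_prime with
  | h₁ => exact fun h => absurd (zero_dvd_iff.1 h) hf0
  | h₂ x hx => exact fun _ => hx.dvd
  | h₃ a π ha hπ ih =>
    intro hdf
    obtain ⟨k, rfl⟩ := hdf
    obtain ⟨s, rfl⟩ := ih ⟨π * k, by ring⟩
    have hak : a * k ≠ 0 := fun h => hf0 (by rw [mul_assoc, h, mul_zero])
    have hJπ : J ≤ Ideal.span {π} ∧ ¬ π ∣ a * k := by
      by_contra hcon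
      refine hmin (a * k) ⟨hmem _ fun π' hπ' hle => ?_, hak⟩
        ⟨hak, π, hπ.not_isUnit, by ring⟩
      rcases hπ'.dvd_or_dvd (show π' ∣ π * (a * k) by
        rw [← mul_assoc]; exact Ideal.mem_span_singleton.1 (hle hf)) with h | h
      · have hass := hπ'.associated_of_dvd hπ h
        rw [Ideal.span_singleton_eq_span_singleton.2 hass] at hle
        exact hass.dvd.trans (Classical.not_not.1 fun hn => hcon ⟨hle, hn⟩)
      · exact h
    have hπr : π ∣ a * s := Ideal.mem_span_singleton.1 (hJπ.1 hr)
    obtain ⟨e, rfl⟩ := (hπ.dvd_or_dvd hπr).resolve_left fun h => hJπ.2 (h.mul_right k)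
    exact ⟨e, by ring⟩

end FLTAgent.AbScheme
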