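import Fermat.Agent.AbScheme.Defs
import Fermat.Agent.AbScheme.SmoothCompletion

/-!
The local rings of a smooth variety over an algebraically closed field are factorial domains.
-/

set_option autoImplicit false

noncomputable section

universe u

namespace FLTAgent.AbScheme

open CategoryTheory AlgebraicGeometry IsLocalRing

variable {K : Type u} [Field K] [IsAlgClosed K]

/-- Localisation of a smooth algebra at a maximal ideal. -/
theorem isDomain_and_ufd_localization_maximal {B : Type u} [CommRing B] [Algebra K B]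
    [Algebra.Smooth K B] (m : Ideal B) [m.IsMaximal] :
    IsDomain (Localization.AtPrime m) ∧ UniqueFactorizationMonoid (Localization.AtPrime m) := by
  have : IsNoetherianRing B := Algebra.FiniteType.isNoetherianRing K B
  have : IsNoetherianRing (Localization.AtPrime m) :=
    IsLocalization.isNoetherianRing m.primeCompl _ inferInstance
  refine isDomain_and_ufd_of_formallySmooth K fun y => ?_
  let _ := Ideal.Quotient.field m
  have : Module.Finite K (B ⧸ m) := finite_of_finite_type_of_isJacobsonRing K (B ⧸ m)
  have hbij := IsAlgClosed.algebraMap_bijective_of_isIntegral (k := K) (K := B ⧸ m)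
  have hc : ∀ b : B, ∃ c : K, residue (Localization.AtPrime m) (algebraMap B _ b)
      = algebraMap K (ResidueField (Localization.AtPrime m)) c := fun b => by
    obtain ⟨c, hc⟩ := hbij.2 (Ideal.Quotient.mk m b)
    refine ⟨c, ?_⟩
    have hmem : b - algebraMap K B c ∈ m := Ideal.Quotient.eq.1 (hc.symm.trans rfl)
    rw [← sub_eq_zero]
    have : algebraMap K (ResidueField (Localization.AtPrime m)) c
        = residue _ (algebraMap B (Localization.AtPrime m) (algebraMap K B c)) := by
      rw [← IsScalarTower.algebraMap_apply K B (Localization.AtPrime m)]; rfl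
    rw [this, ← map_sub, ← map_sub, residue_eq_zero_iff,
      ← IsLocalization.AtPrime.map_eq_maximalIdeal m]
    exact Ideal.mem_map_of_mem _ hmem
  obtain ⟨r, rfl⟩ := residue_surjective y
  obtain ⟨b, s, rfl⟩ := IsLocalization.exists_mk'_eq m.primeCompl r
  obtain ⟨c, hcb⟩ := hc b
  obtain ⟨d, hds⟩ := hc s.1
  refine ⟨c * d⁻¹, ?_⟩
  have hu : residue (Localization.AtPrime m) (algebraMap B _ s.1) ≠ 0 :=
    (residue_ne_zero_iff_isUnit _).2 (IsLocalization.map_units _ s)
  apply mul_right_cancel₀ hu
  rw [← map_mul (residue _), IsLocalization.mk'_spec, hcb]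
  rw [hds] at hu ⊢
  have hd : d ≠ 0 := fun h => hu (by rw [h, map_zero])
  rw [← map_mul, mul_assoc, inv_mul_cancel₀ hd, mul_one]

/-- Localisation of a smooth algebra at any prime ideal. -/
theorem isDomain_and_ufd_localization_prime {B : Type u} [CommRing B] [Algebra K B]
    [Algebra.Smooth K B] (p : Ideal B) [p.IsPrime] (R : Type u) [CommRing R] [Algebra B R]
    [IsLocalization.AtPrime R p] : IsDomain R ∧ UniqueFactorizationMonoid R := by
  obtain ⟨m, hm, hpm⟩ := Ideal.exists_le_maximal p (Ideal.IsPrime.ne_top inferInstance)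
  obtain ⟨hdom, hufd⟩ := isDomain_and_ufd_localization_maximal (K := K) m
  have hle : m.primeCompl ≤ p.primeCompl := fun x hx hxp => hx (hpm hxp)
  let _ : Algebra (Localization.AtPrime m) R :=
    IsLocalization.localizationAlgebraOfSubmonoidLe (Localization.AtPrime m) R m.primeCompl
      p.primeCompl hle
  have : IsScalarTower B (Localization.AtPrime m) R :=
    IsLocalization.localization_isScalarTower_of_submonoid_le (Localization.AtPrime m) R
      m.primeCompl p.primeCompl hle
  have : IsLocalization (p.primeCompl.map (algebraMap B (Localization.AtPrime m))) R :=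
    IsLocalization.isLocalization_of_submonoid_le (Localization.AtPrime m) R m.primeCompl
      p.primeCompl hle
  refine ⟨IsLocalization.isDomain_of_le_nonZeroDivisors R
    (M := p.primeCompl.map (algebraMap B (Localization.AtPrime m))) ?_,
    UniqueFactorizationMonoid.of_isLocalization
      (p.primeCompl.map (algebraMap B (Localization.AtPrime m))) R⟩
  rintro _ ⟨x, hx, rfl⟩
  rw [mem_nonZeroDivisors_iff_ne_zero]
  intro h0
  obtain ⟨t, ht⟩ := (IsLocalization.map_eq_zero_iff m.primeCompl _ x).1 h0
  exact hle t.2 ((Ideal.IsPrime.mem_or_mem ‹p.IsPrime› (ht ▸ p.zero_mem)).resolve_right hx)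

/-- The local rings of a smooth scheme over `K` are factorial domains. -/
theorem isDomain_and_ufd_stalk {X : Scheme.{u}} (f : X ⟶ Spec (CommRingCat.of K)) [Smooth f]
    (x : X) : IsDomain (X.presheaf.stalk x) ∧ UniqueFactorizationMonoid (X.presheaf.stalk x) := by
  obtain ⟨_, ⟨U, hU, rfl⟩, hxU, -⟩ :=
    X.isBasis_affineOpens.exists_subset_of_mem_open (Set.mem_univ x) isOpen_univ
  let φ : K →+* Γ(X, U) :=
    ((Scheme.ΓSpecIso (CommRingCat.of K)).inv ≫ f.appLE ⊤ U le_top).hom
  let _ : Algebra K Γ(X, U) := φ.toAlgebra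
  have hs : (f.appLE ⊤ U le_top).hom.Smooth :=
    HasRingHomProperty.appLE (P := @Smooth) f inferInstance ⟨⊤, isAffineOpen_top _⟩ ⟨U, hU⟩ le_top
  have : Algebra.Smooth K Γ(X, U) :=
    RingHom.Smooth.respectsIso.2 _ (Scheme.ΓSpecIso (CommRingCat.of K)).symm.commRingCatIsoToRingEquiv hs
  let _ : Algebra Γ(X, U) (X.presheaf.stalk x) :=
    TopCat.Presheaf.algebra_section_stalk X.presheaf ⟨x, hxU⟩
  have : IsLocalization.AtPrime (X.presheaf.stalk x) (hU.primeIdealOf ⟨x, hxU⟩).asIdeal :=
    hU.isLocalization_stalk ⟨x, hxU⟩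
  exact isDomain_and_ufd_localization_prime (K := K) (hU.primeIdealOf ⟨x, hxU⟩).asIdeal _

end FLTAgent.AbScheme
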