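import Fermat.Agent.AbScheme.Defs

/-!
The ideal of functions vanishing on a closed set, inside the local rings of an integral scheme.
-/

set_option autoImplicit false

noncomputable section

universe u

namespace FLTAgent.AbScheme

open CategoryTheory AlgebraicGeometry TopologicalSpace IsLocalRing

variable {X : Scheme.{u}}

/-- The germs at `y` which vanish at all generisations of `y` outside `U`. -/
def vanishAt (U : X.Opens) (y : X) : Ideal (X.presheaf.stalk y) :=
  ⨅ (z : X) (h : z ⤳ y) (_ : z ∉ U),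
    (maximalIdeal (X.presheaf.stalk z)).comap (X.presheaf.stalkSpecializes h).hom

theorem mem_vanishAt_iff {U : X.Opens} {y : X} {r : X.presheaf.stalk y} :
    r ∈ vanishAt U y ↔ ∀ (z : X) (h : z ⤳ y), z ∉ U →
      ¬ IsUnit ((X.presheaf.stalkSpecializes h).hom r) := by
  simp only [vanishAt, Ideal.mem_iInf, Ideal.mem_comap, mem_maximalIdeal, mem_nonunits_iff]

theorem germ_stalkSpecializes_hom {P : X.Opens} {z y : X} (h : z ⤳ y) (hy : y ∈ P) (b : Γ(X, P)) :
    (X.presheaf.stalkSpecializes h).hom (X.presheaf.germ P y hy b) =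
      X.presheaf.germ P z (h.mem_open P.2 hy) b := by
  rw [← ConcreteCategory.comp_apply, X.presheaf.germ_stalkSpecializes]

/-- Primes of a local ring are the generisations. -/
theorem exists_point_of_prime (y : X) (Q : Ideal (X.presheaf.stalk y)) [Q.IsPrime] :
    ∃ (z : X) (h : z ⤳ y),
      Q = (maximalIdeal (X.presheaf.stalk z)).comap (X.presheaf.stalkSpecializes h).hom := by
  obtain ⟨_, ⟨P, hP' , rfl⟩, hy, -⟩ :=
    X.isBasis_affineOpens.exists_subset_of_mem_open (Set.mem_univ y) isOpen_univ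
  have hP : IsAffineOpen P := hP'
  let _ : Algebra Γ(X, P) (X.presheaf.stalk y) :=
    TopCat.Presheaf.algebra_section_stalk X.presheaf ⟨y, hy⟩
  have hloc : IsLocalization.AtPrime (X.presheaf.stalk y) (hP.primeIdealOf ⟨y, hy⟩).asIdeal :=
    hP.isLocalization_stalk ⟨y, hy⟩
  let q : PrimeSpectrum Γ(X, P) := ⟨Q.comap (algebraMap Γ(X, P) _), inferInstance⟩
  have hq : q.asIdeal ≤ (hP.primeIdealOf ⟨y, hy⟩).asIdeal := fun b hb => by
    by_contra hb'
    exact Ideal.IsPrime.ne_top ‹Q.IsPrime› (Q.eq_top_of_isUnit_mem hb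
      (IsLocalization.map_units _ (⟨b, hb'⟩ : (hP.primeIdealOf ⟨y, hy⟩).asIdeal.primeCompl)))
  set z : X := hP.fromSpec q with hz
  have h : z ⤳ y := by
    have := ((PrimeSpectrum.le_iff_specializes q (hP.primeIdealOf ⟨y, hy⟩)).1 hq).map
      hP.fromSpec.continuous
    rw [hP.fromSpec_primeIdealOf ⟨y, hy⟩] at this
    exact this
  have hzP : z ∈ P := h.mem_open P.2 hy
  have hzq : hP.primeIdealOf ⟨z, hzP⟩ = q :=
    hP.fromSpec.isOpenEmbedding.injective (hP.fromSpec_primeIdealOf ⟨z, hzP⟩)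
  refine ⟨z, h, ?_⟩
  let _ : Algebra Γ(X, P) (X.presheaf.stalk z) :=
    TopCat.Presheaf.algebra_section_stalk X.presheaf ⟨z, hzP⟩
  have hlocz : IsLocalization.AtPrime (X.presheaf.stalk z) (hP.primeIdealOf ⟨z, hzP⟩).asIdeal :=
    hP.isLocalization_stalk ⟨z, hzP⟩
  ext r
  obtain ⟨b, s, rfl⟩ :=
    IsLocalization.exists_mk'_eq (hP.primeIdealOf ⟨y, hy⟩).asIdeal.primeCompl r
  have hs : IsUnit (algebraMap Γ(X, P) (X.presheaf.stalk y) s.1) := IsLocalization.map_units _ s
  rw [← Q.unit_mul_mem_iff_mem hs, ← (Ideal.comap _ _).unit_mul_mem_iff_mem hs,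
    IsLocalization.mk'_spec']
  refine (show _ ↔ b ∈ q.asIdeal from Iff.rfl).trans ?_
  rw [Ideal.mem_comap (x := algebraMap Γ(X, P) (X.presheaf.stalk y) b), show (X.presheaf.stalkSpecializes h).hom (algebraMap _ _ b)
    = algebraMap Γ(X, P) (X.presheaf.stalk z) b from germ_stalkSpecializes_hom h hy b,
    IsLocalization.AtPrime.to_map_mem_maximal_iff _ (hP.primeIdealOf ⟨z, hzP⟩).asIdeal, hzq]

theorem vanishAt_le_of_notMem {U : X.Opens} {y z : X} (h : z ⤳ y) (hz : z ∉ U) :
    vanishAt U y ≤ (maximalIdeal (X.presheaf.stalk z)).comap (X.presheaf.stalkSpecializes h).hom :=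
  iInf_le_of_le z (iInf_le_of_le h (iInf_le_of_le hz le_rfl))

/-- The sections over `P` vanishing outside `U`. -/
def vanishOn (U P : X.Opens) : Ideal Γ(X, P) :=
  ⨅ (z : X) (h : z ∈ P) (_ : z ∉ U),
    (maximalIdeal (X.presheaf.stalk z)).comap (X.presheaf.germ P z h).hom

theorem mem_vanishOn_iff {U P : X.Opens} {b : Γ(X, P)} :
    b ∈ vanishOn U P ↔ X.basicOpen b ≤ U := by
  simp only [vanishOn, Ideal.mem_iInf, Ideal.mem_comap, mem_maximalIdeal, mem_nonunits_iff]
  constructor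
  · intro H z hz
    by_contra hzU
    have hzP := X.basicOpen_le b hz
    exact H z hzP hzU ((X.mem_basicOpen b z hzP).1 hz)
  · intro H z hzP hzU hu
    exact hzU (H ((X.mem_basicOpen b z hzP).2 hu))

theorem germ_mem_vanishAt {U P : X.Opens} {y : X} (hy : y ∈ P) {b : Γ(X, P)}
    (hb : b ∈ vanishOn U P) : X.presheaf.germ P y hy b ∈ vanishAt U y := by
  rw [mem_vanishAt_iff]
  intro z h hz hu
  rw [germ_stalkSpecializes_hom] at hu
  exact hz (mem_vanishOn_iff.1 hb ((X.mem_basicOpen b z _).2 hu))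

/-- A point of `U` is separated from the complement by a germ. -/
theorem exists_mem_vanishAt_isUnit (U : X.Opens) {y z : X} (h : z ⤳ y) (hz : z ∈ U) :
    ∃ r ∈ vanishAt U y, IsUnit ((X.presheaf.stalkSpecializes h).hom r) := by
  obtain ⟨_, ⟨P, hP, rfl⟩, hy, -⟩ :=
    X.isBasis_affineOpens.exists_subset_of_mem_open (Set.mem_univ y) isOpen_univ
  obtain ⟨b, hb, hzb⟩ := hP.exists_basicOpen_le ⟨z, hz⟩ (h.mem_open P.2 hy)
  refine ⟨X.presheaf.germ P y hy b, germ_mem_vanishAt hy (mem_vanishOn_iff.2 hb), ?_⟩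
  rw [germ_stalkSpecializes_hom]
  exact (X.mem_basicOpen b z _).1 hzb

theorem vanishAt_isRadical (U : X.Opens) (y : X) : (vanishAt U y).IsRadical := by
  rintro r ⟨n, hn⟩
  rw [mem_vanishAt_iff] at hn ⊢
  intro z h hz hu
  exact hn z h hz (by rw [map_pow]; exact hu.pow n)

theorem vanishAt_eq_map {U P : X.Opens} (hP : IsAffineOpen P) {y : X} (hy : y ∈ P) :
    vanishAt U y = (vanishOn U P).map (X.presheaf.germ P y hy).hom := by
  refine le_antisymm ?_ (Ideal.map_le_iff_le_comap.2 fun b hb => germ_mem_vanishAt hy hb)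
  have hrad : ((vanishOn U P).map (X.presheaf.germ P y hy).hom).radical ≤
      (vanishOn U P).map (X.presheaf.germ P y hy).hom := by
    let _ : Algebra Γ(X, P) (X.presheaf.stalk y) :=
      TopCat.Presheaf.algebra_section_stalk X.presheaf ⟨y, hy⟩
    have hloc : IsLocalization.AtPrime (X.presheaf.stalk y) (hP.primeIdealOf ⟨y, hy⟩).asIdeal :=
      hP.isLocalization_stalk ⟨y, hy⟩
    refine (IsLocalization.map_radical (hP.primeIdealOf ⟨y, hy⟩).asIdeal.primeCompl
      (X.presheaf.stalk y) (vanishOn U P)).symm.le.trans (Ideal.map_mono ?_)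
    rintro b ⟨n, hn⟩
    rcases Nat.eq_zero_or_pos n with rfl | hn0
    · simpa using Ideal.mul_mem_left _ b hn
    rw [mem_vanishOn_iff] at hn ⊢
    rwa [X.basicOpen_pow b hn0] at hn
  refine le_trans ?_ hrad
  rw [Ideal.radical_eq_sInf]
  refine le_sInf fun Q ⟨hQ, hQp⟩ => ?_
  obtain ⟨z, h, rfl⟩ := exists_point_of_prime y Q
  refine vanishAt_le_of_notMem h fun hz => ?_
  obtain ⟨b, hb, hzb⟩ := hP.exists_basicOpen_le ⟨z, hz⟩ (h.mem_open P.2 hy)
  have := hQ (Ideal.mem_map_of_mem _ (mem_vanishOn_iff.2 hb : b ∈ vanishOn U P))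
  rw [Ideal.mem_comap, germ_stalkSpecializes_hom] at this
  exact this ((X.mem_basicOpen b z _).1 hzb)

theorem vanishAt_eq_top {U : X.Opens} {y : X} (hy : y ∈ U) : vanishAt U y = ⊤ := by
  rw [Ideal.eq_top_iff_one, mem_vanishAt_iff]
  exact fun z h hz => absurd (h.mem_open U.2 hy) hz

theorem vanishAt_le_maximalIdeal {U : X.Opens} {y : X} (hy : y ∉ U) :
    vanishAt U y ≤ maximalIdeal (X.presheaf.stalk y) := by
  intro r hr
  have := mem_vanishAt_iff.1 hr y specializes_rfl hy
  simpa using this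

theorem vanishAt_ne_bot [IsIntegral X] {U : X.Opens} (hU : (U : Set X).Nonempty) (y : X) :
    vanishAt U y ≠ ⊥ := by
  obtain ⟨r, hr, hu⟩ := exists_mem_vanishAt_isUnit U
    ((genericPoint_spec X).specializes (Set.mem_univ y))
    (((genericPoint_spec X).mem_open_set_iff U.2).2 (by simpa using hU))
  intro h
  rw [h] at hr
  obtain rfl : r = 0 := hr
  simp at hu

end FLTAgent.AbScheme
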